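import Fermat.Agent.H24K.Step
import Fermat.Agent.H07.ThreeIrr
import Fermat.Agent.H07.HilbertC
set_option autoImplicit false

/-!
# The 5-switch with control of the discriminant at 2 and 3
-/

namespace Fermat.Agent.H24K

open WeierstrassCurve Fermat.Agent.H24 Fermat.Agent.H07.Sel

/-- relation between a curve and its switch -/
structure Sw (W W' : WeierstrassCurve ℤ) : Prop where
  ne : W'.Δ ≠ 0
  ss : W'.IsSemistableModel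
  two : (2 : ℤ) ∣ W'.Δ
  dvd : ∀ q : ℕ, q.Prime → (q : ℤ) ∣ W.Δ → (q : ℤ) ∣ W'.Δ
  congr : ∀ ℓ : ℕ, ℓ.Prime → W.IsGoodPrimeFor ℓ → W'.IsGoodPrimeFor ℓ → ℓ ≠ 5 →
    (5 : ℤ) ∣ (W'.apOfModel ℓ - W.apOfModel ℓ)

theorem Sw.refl {W : WeierstrassCurve ℤ} (hΔ : W.Δ ≠ 0) (hW : W.IsSemistableModel)
    (h2 : (2 : ℤ) ∣ W.Δ) : Sw W W :=
  ⟨hΔ, hW, h2, fun _ _ h => h, fun _ _ _ _ _ => by rw [sub_self]; exact dvd_zero _⟩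

theorem Sw.trans {W W' W'' : WeierstrassCurve ℤ} (h : Sw W W') (h' : Sw W' W'') : Sw W W'' := by
  refine ⟨h'.ne, h'.ss, h'.two, fun q hq hd => h'.dvd q hq (h.dvd q hq hd), ?_⟩
  intro ℓ hℓ hg hg'' h5
  have hg' : W'.IsGoodPrimeFor ℓ := fun hd => hg'' (h'.dvd ℓ hℓ hd)
  have e : W''.apOfModel ℓ - W.apOfModel ℓ = (W''.apOfModel ℓ - W'.apOfModel ℓ) +
    (W'.apOfModel ℓ - W.apOfModel ℓ) := by ring
  rw [e]
  exact dvd_add (h'.congr ℓ hℓ hg' hg'' h5) (h.congr ℓ hℓ hg hg' h5)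

theorem val_pos_iff {q : ℕ} (hq : q.Prime) {z : ℤ} (hz : z ≠ 0) :
    (q : ℤ) ∣ z ↔ padicValInt q z ≠ 0 := by
  have := Fact.mk hq
  have h := padicValInt_dvd_iff 1 z (p := q)
  rw [pow_one] at h
  rw [h]
  constructor
  · rintro (h | h)
    · exact absurd h hz
    · omega
  · intro h
    right; omega

theorem cube_dvd {q : ℕ} (hq : q.Prime) {z : ℤ} (hz : z ≠ 0) (h1 : (q : ℤ) ∣ z)
    (h3 : 3 ∣ padicValInt q z) : (q : ℤ) ^ 3 ∣ z := by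
  have := Fact.mk hq
  rw [padicValInt_dvd_iff]
  right
  have := (val_pos_iff hq hz).1 h1
  omega

theorem stepA (W : WeierstrassCurve ℤ) (hΔ : W.Δ ≠ 0) (hW : W.IsSemistableModel)
    (h2 : (2 : ℤ) ∣ W.Δ) :
    ∃ W' : WeierstrassCurve ℤ, Sw W W' ∧ ¬ 3 ∣ padicValInt 2 W'.Δ ∧
      padicValInt 3 W'.Δ = padicValInt 3 W.Δ ∧ padicValInt 5 W'.Δ = padicValInt 5 W.Δ := by
  by_cases h : 3 ∣ padicValInt 2 W.Δ
  · obtain ⟨W', h1, h3, h4, h5, h6, h7, h8⟩ := step 2 2 3 (Or.inl ⟨rfl, rfl, rfl⟩) W hΔ hW h2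
      (cube_dvd Nat.prime_two hΔ (by exact_mod_cast h2) h)
    refine ⟨W', ⟨h1, h3, h4, h7, h8⟩, by omega, h6 3 Nat.prime_three (by norm_num) (by norm_num),
      h6 5 Nat.prime_five (by norm_num) (by norm_num)⟩
  · exact ⟨W, Sw.refl hΔ hW h2, h, rfl, rfl⟩

theorem stepB (W : WeierstrassCurve ℤ) (hΔ : W.Δ ≠ 0) (hW : W.IsSemistableModel)
    (h2 : (2 : ℤ) ∣ W.Δ) :
    ∃ W' : WeierstrassCurve ℤ, Sw W W' ∧ padicValInt 2 W'.Δ = padicValInt 2 W.Δ ∧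
      ((3 : ℤ) ∣ W'.Δ → ¬ 3 ∣ padicValInt 3 W'.Δ) ∧ ((3 : ℤ) ∣ W'.Δ → (3 : ℤ) ∣ W.Δ) ∧
      padicValInt 5 W'.Δ = padicValInt 5 W.Δ := by
  by_cases h : (3 : ℤ) ∣ W.Δ ∧ 3 ∣ padicValInt 3 W.Δ
  · obtain ⟨h30, h33⟩ := h
    obtain ⟨W', h1, h3, h4, h5, h6, h7, h8⟩ := step 3 1 4 (Or.inr ⟨rfl, rfl, rfl⟩) W hΔ hW h2
      (cube_dvd Nat.prime_three hΔ (by exact_mod_cast h30) h33)
    exact ⟨W', ⟨h1, h3, h4, h7, h8⟩, h6 2 Nat.prime_two (by norm_num) (by norm_num),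
      fun _ => by omega, fun _ => h30, h6 5 Nat.prime_five (by norm_num) (by norm_num)⟩
  · exact ⟨W, Sw.refl hΔ hW h2, rfl, fun h3 h4 => h ⟨h3, h4⟩, fun h => h, rfl⟩

theorem stepC (W : WeierstrassCurve ℤ) (hΔ : W.Δ ≠ 0) (hW : W.IsSemistableModel)
    (h2 : (2 : ℤ) ∣ W.Δ) :
    ∃ W' : WeierstrassCurve ℤ, Sw W W' ∧ W'.ModRepIsIrreducible 3 ∧
      ∀ q : ℕ, q.Prime → q ≤ 5 → padicValInt q W'.Δ = padicValInt q W.Δ := by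
  obtain ⟨n, hn, hX⟩ := Fermat.Agent.H07.hilbert W.c₄ W.c₆ W.Δ W.c_relation.symm hΔ (30 * W.Δ)
    (mul_ne_zero (by norm_num) hΔ)
  have hDD := DD_ne_zero W.c₄ W.c₆ n
  have hΔ' : (fam W n).Δ ≠ 0 := by
    rw [fam_Δ_int W hΔ]; exact mul_ne_zero hΔ (pow_ne_zero 5 hDD)
  refine ⟨fam W n, ⟨hΔ', fam_semistable W hΔ hW n hn, ?_, ?_, ?_⟩, ?_, ?_⟩
  · rw [fam_Δ_int W hΔ]; exact h2.mul_right _
  · intro q hq h
    rw [fam_Δ_int W hΔ]; exact h.mul_right _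
  · intro ℓ hℓ hg hg' h5
    exact fam_congr Fermat.Agent.Frob.ch_prop W n hn ℓ hℓ hg hg' h5
  · apply Fermat.Agent.H07.modThree_irreducible _ hΔ'
    intro X
    rw [fam_c₄, fam_c₆]
    exact hX X
  · intro q hq hq5
    have := Fact.mk hq
    have hq' := Nat.prime_iff_prime_int.mp hq
    have h30 : (q : ℤ) ∣ 30 := by
      have h2 := hq.two_le
      interval_cases q
      · norm_num
      · norm_num
      · exact absurd hq (by decide)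
      · norm_num
    have hqn : (q : ℤ) ∣ n := (h30.mul_right _).trans hn
    rw [fam_Δ_int W hΔ, padicValInt.mul hΔ (pow_ne_zero 5 hDD), val_zero (fun h =>
      not_dvd_DD hq _ _ _ hqn (hq'.dvd_of_dvd_pow h)), add_zero]

/-- **The 5-switch with control of the discriminant at 2, 3 and 5.** -/
theorem switch_control' (W : WeierstrassCurve ℤ) (hΔ : W.Δ ≠ 0) (hW : W.IsSemistableModel)
    (h2 : (2 : ℤ) ∣ W.Δ) :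
    ∃ W' : WeierstrassCurve ℤ, W'.Δ ≠ 0 ∧ W'.IsSemistableModel ∧ (2 : ℤ) ∣ W'.Δ ∧
      W'.ModRepIsIrreducible 3 ∧ ¬ 3 ∣ padicValInt 2 W'.Δ ∧
      ((3 : ℤ) ∣ W'.Δ → ¬ 3 ∣ padicValInt 3 W'.Δ) ∧
      ((3 : ℤ) ∣ W'.Δ → (3 : ℤ) ∣ W.Δ) ∧ ((5 : ℤ) ∣ W'.Δ → (5 : ℤ) ∣ W.Δ) ∧
      (∀ q : ℕ, q.Prime → (q : ℤ) ∣ W.Δ → (q : ℤ) ∣ W'.Δ) ∧
      ∀ ℓ : ℕ, ℓ.Prime → W.IsGoodPrimeFor ℓ → W'.IsGoodPrimeFor ℓ → ℓ ≠ 5 →
        (5 : ℤ) ∣ (W'.apOfModel ℓ - W.apOfModel ℓ) := by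
  obtain ⟨W1, s1, a1, a2, a3⟩ := stepA W hΔ hW h2
  obtain ⟨W2, s2, b1, b2, b3, b4⟩ := stepB W1 s1.ne s1.ss s1.two
  obtain ⟨W3, s3, c1, c2⟩ := stepC W2 s2.ne s2.ss s2.two
  have s := (s1.trans s2).trans s3
  have d2 := c2 2 Nat.prime_two (by norm_num)
  have d3 := c2 3 Nat.prime_three (by norm_num)
  have d5 := c2 5 Nat.prime_five (by norm_num)
  have k3 : (3 : ℤ) ∣ W3.Δ → (3 : ℤ) ∣ W2.Δ := by
    intro h
    have h1 := (val_pos_iff Nat.prime_three s3.ne).1 (by exact_mod_cast h)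
    rw [d3] at h1
    exact_mod_cast (val_pos_iff Nat.prime_three s2.ne).2 h1
  refine ⟨W3, s.ne, s.ss, s.two, c1, ?_, ?_, ?_, ?_, s.dvd, s.congr⟩
  · rw [d2, b1]; exact a1
  · intro h
    rw [d3]; exact b2 (k3 h)
  · intro h
    have h1 := (val_pos_iff Nat.prime_three s1.ne).1 (by exact_mod_cast b3 (k3 h))
    rw [a2] at h1
    exact_mod_cast (val_pos_iff Nat.prime_three hΔ).2 h1
  · intro h
    have h1 := (val_pos_iff Nat.prime_five s.ne).1 (by exact_mod_cast h)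
    rw [d5, b4, a3] at h1
    exact_mod_cast (val_pos_iff Nat.prime_five hΔ).2 h1

/-- **K2** (docs T_FIN2) -/
theorem switch_control (W : WeierstrassCurve ℤ) (hΔ : W.Δ ≠ 0) (hW : W.IsSemistableModel)
    (h2 : (2 : ℤ) ∣ W.Δ) :
    ∃ W' : WeierstrassCurve ℤ, W'.Δ ≠ 0 ∧ W'.IsSemistableModel ∧ (2 : ℤ) ∣ W'.Δ ∧
      W'.ModRepIsIrreducible 3 ∧ ¬ 3 ∣ padicValInt 2 W'.Δ ∧
      ((3 : ℤ) ∣ W'.Δ → ¬ 3 ∣ padicValInt 3 W'.Δ) ∧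
      ((5 : ℤ) ∣ W'.Δ → (5 : ℤ) ∣ W.Δ) ∧
      ∀ ℓ : ℕ, ℓ.Prime → W.IsGoodPrimeFor ℓ → W'.IsGoodPrimeFor ℓ → ℓ ≠ 5 →
        (5 : ℤ) ∣ (W'.apOfModel ℓ - W.apOfModel ℓ) := by
  obtain ⟨W', h1, h2, h3, h4, h5, h6, -, h8, -, h10⟩ := switch_control' W hΔ hW h2
  exact ⟨W', h1, h2, h3, h4, h5, h6, h8, h10⟩

end Fermat.Agent.H24K
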