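import Mathlib
import Fermat.Prelude.Def_FLTPrelim_ModularRep
import Fermat.Agent.Frob.VarChange
import Fermat.Agent.Frob.Relation
import Fermat.Agent.H24.Final
set_option autoImplicit false

/-!
# Traces of Frobenius of isomorphic curves, and the congruence in the family
-/

namespace Fermat.Agent.H24K

open WeierstrassCurve WeierstrassCurve.Affine WeierstrassCurve.Affine.Point Fermat.Agent.H24

theorem trace_vc {F : Type*} [Field F] (C : VariableChange F) (W : WeierstrassCurve F) :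
    (C • W).traceOfFrobenius = W.traceOfFrobenius := by
  unfold traceOfFrobenius card
  rw [Nat.card_congr (Equiv.ofBijective (Frob.vcFun (W := W.toAffine) (C := C) rfl)
    ⟨Frob.vcFun_injective _, Frob.vcFun_surjective _⟩)]

/-- scaling of a Weierstrass curve -/
def scale {R : Type*} [CommRing R] (u : R) (W : WeierstrassCurve R) : WeierstrassCurve R :=
  ⟨u * W.a₁, u ^ 2 * W.a₂, u ^ 3 * W.a₃, u ^ 4 * W.a₄, u ^ 6 * W.a₆⟩

section

variable {R : Type*} [CommRing R] (u : R) (W : WeierstrassCurve R)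

theorem scale_c₄ : (scale u W).c₄ = u ^ 4 * W.c₄ := by
  simp only [scale, WeierstrassCurve.c₄, WeierstrassCurve.b₂, WeierstrassCurve.b₄]; ring

theorem scale_c₆ : (scale u W).c₆ = u ^ 6 * W.c₆ := by
  simp only [scale, WeierstrassCurve.c₆, WeierstrassCurve.b₂, WeierstrassCurve.b₄,
    WeierstrassCurve.b₆]; ring

theorem scale_Δ : (scale u W).Δ = u ^ 12 * W.Δ := by
  simp only [scale, WeierstrassCurve.Δ, WeierstrassCurve.b₂, WeierstrassCurve.b₄,
    WeierstrassCurve.b₆, WeierstrassCurve.b₈]; ring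

theorem scale_map {S : Type*} [CommRing S] (f : R →+* S) :
    (scale u W).map f = scale (f u) (W.map f) := by
  ext <;> simp [scale, WeierstrassCurve.map]

end

theorem trace_scale {F : Type*} [Field F] {u : F} (hu : u ≠ 0) (W : WeierstrassCurve F) :
    (scale u W).traceOfFrobenius = W.traceOfFrobenius := by
  have h : W = (⟨Units.mk0 u hu, 0, 0, 0⟩ : VariableChange F) • scale u W := by
    ext
    · rw [variableChange_a₁]; simp [scale]; field_simp
    · rw [variableChange_a₂]; simp [scale]; field_simp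
    · rw [variableChange_a₃]; simp [scale]; field_simp
    · rw [variableChange_a₄]; simp [scale]; field_simp
    · rw [variableChange_a₆]; simp [scale]; field_simp
  conv_rhs => rw [h, trace_vc]

theorem z3_cube : ∀ x y : ZMod 3, x ^ 3 = y ^ 3 → x = y := by decide

theorem z3_three : (3 : ZMod 3) = 0 := by decide

theorem z3_two : (2 : ZMod 3) ≠ 0 := by decide

theorem z3_four : (4 : ZMod 3) ≠ 0 := by decide

/-- curves with `3`-adically close invariants -/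
theorem trace_three (W V : WeierstrassCurve ℤ) (h4 : (243 : ℤ) ∣ V.c₄ - W.c₄)
    (h6 : (243 : ℤ) ∣ V.c₆ - W.c₆) :
    (V.reductionMod 3).traceOfFrobenius = (W.reductionMod 3).traceOfFrobenius := by
  have hfact : Fact (Nat.Prime 3) := ⟨Nat.prime_three⟩
  obtain ⟨k4, hk4⟩ := h4
  obtain ⟨k6, hk6⟩ := h6
  have hb2 : (3 : ℤ) ∣ V.b₂ - W.b₂ := by
    have h1 : (3 : ℤ) ∣ V.b₂ ^ 3 - W.b₂ ^ 3 := by
      refine ⟨12 * (V.b₂ * V.b₄ - W.b₂ * W.b₄) - 72 * (V.b₆ - W.b₆) - 81 * k6, ?_⟩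
      simp only [WeierstrassCurve.c₆] at hk6
      linear_combination -hk6
    have h3 := (ZMod.intCast_zmod_eq_zero_iff_dvd (V.b₂ ^ 3 - W.b₂ ^ 3) 3).2 (by exact_mod_cast h1)
    push_cast at h3
    have h4 := z3_cube _ _ (sub_eq_zero.1 h3)
    have h5 := (ZMod.intCast_zmod_eq_zero_iff_dvd (V.b₂ - W.b₂) 3).1 (by
      push_cast; rw [h4, sub_self])
    exact_mod_cast h5
  obtain ⟨k, hk⟩ := hb2
  obtain ⟨r, hr⟩ : ∃ r, r = 61 * k := ⟨_, rfl⟩
  obtain ⟨B2, hB2⟩ : ∃ x, x = W.b₂ + 12 * r := ⟨_, rfl⟩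
  obtain ⟨B4, hB4⟩ : ∃ x, x = W.b₄ + r * W.b₂ + 6 * r ^ 2 := ⟨_, rfl⟩
  obtain ⟨B6, hB6⟩ : ∃ x, x = W.b₆ + 2 * r * W.b₄ + r ^ 2 * W.b₂ + 4 * r ^ 3 := ⟨_, rfl⟩
  have hc4 : W.c₄ = B2 ^ 2 - 24 * B4 := by
    rw [hB2, hB4, WeierstrassCurve.c₄]; ring
  have hc6 : W.c₆ = -B2 ^ 3 + 36 * B2 * B4 - 216 * B6 := by
    rw [hB2, hB4, hB6, WeierstrassCurve.c₆]; ring
  have e2 : V.b₂ = B2 - 729 * k := by rw [hB2, hr]; linear_combination hk
  have e4 : ∃ z, V.b₄ - B4 = 81 * z := by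
    have h1 : 24 * (V.b₄ - B4) = 243 * (-(6 * k * B2) + 2187 * k ^ 2 - k4) := by
      rw [hc4, WeierstrassCurve.c₄, e2] at hk4
      linear_combination -hk4
    generalize (-(6 * k * B2) + 2187 * k ^ 2 - k4) = z at h1
    exact ⟨(V.b₄ - B4) / 81, by omega⟩
  obtain ⟨z4, hz4⟩ := e4
  have e6 : ∃ z, V.b₆ - B6 = 9 * z := by
    have h1 : 216 * (V.b₆ - B6) = 243 * (9 * k * B2 ^ 2 - 3 * 729 * 3 * k ^ 2 * B2 +
        729 * 729 * 3 * k ^ 3 + 12 * B2 * z4 - 108 * k * B4 - 12 * 729 * k * z4 - k6) := by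
      have e4' : V.b₄ = B4 + 81 * z4 := by linear_combination hz4
      rw [hc6, WeierstrassCurve.c₆, e2, e4'] at hk6
      linear_combination -hk6
    generalize (9 * k * B2 ^ 2 - 3 * 729 * 3 * k ^ 2 * B2 +
        729 * 729 * 3 * k ^ 3 + 12 * B2 * z4 - 108 * k * B4 - 12 * 729 * k * z4 - k6) = z at h1
    exact ⟨(V.b₆ - B6) / 9, by omega⟩
  obtain ⟨z6, hz6⟩ := e6
  -- in characteristic 3
  let f : ℤ →+* ZMod 3 := Int.castRingHom (ZMod 3)
  have h3 : (3 : ZMod 3) = 0 := z3_three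
  have h2 : (2 : ZMod 3) ≠ 0 := z3_two
  have h4' : (4 : ZMod 3) ≠ 0 := z3_four
  have f3 : f 3 = 0 := by rw [map_ofNat]; exact h3
  obtain ⟨s, hs⟩ : ∃ s : ZMod 3, f V.a₁ = f W.a₁ + 2 * s :=
    ⟨(f V.a₁ - f W.a₁) / 2, by field_simp; ring⟩
  obtain ⟨t, ht⟩ : ∃ t : ZMod 3, f V.a₃ = f W.a₃ + f r * f W.a₁ + 2 * t :=
    ⟨(f V.a₃ - f W.a₃ - f r * f W.a₁) / 2, by field_simp; ring⟩
  have g2 : f V.a₁ ^ 2 + 4 * f V.a₂ = f W.a₁ ^ 2 + 4 * f W.a₂ + 12 * f r := by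
    have h := congrArg f e2
    rw [hB2, WeierstrassCurve.b₂, WeierstrassCurve.b₂] at h
    simp only [map_add, map_mul, map_pow, map_sub, map_ofNat] at h
    linear_combination h + (-243 * f k) * h3
  have g4 : f V.a₁ * f V.a₃ + 2 * f V.a₄ = f W.a₁ * f W.a₃ + 2 * f W.a₄ +
      f r * (f W.a₁ ^ 2 + 4 * f W.a₂) + 6 * f r ^ 2 := by
    have h := congrArg f hz4
    rw [hB4, WeierstrassCurve.b₂, WeierstrassCurve.b₄, WeierstrassCurve.b₄] at h
    simp only [map_add, map_mul, map_pow, map_sub, map_ofNat] at h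
    linear_combination h + (27 * f z4) * h3
  have g6 : f V.a₃ ^ 2 + 4 * f V.a₆ = f W.a₃ ^ 2 + 4 * f W.a₆ +
      2 * f r * (f W.a₁ * f W.a₃ + 2 * f W.a₄) + f r ^ 2 * (f W.a₁ ^ 2 + 4 * f W.a₂) +
        4 * f r ^ 3 := by
    have h := congrArg f hz6
    rw [hB6, WeierstrassCurve.b₂, WeierstrassCurve.b₄, WeierstrassCurve.b₆,
      WeierstrassCurve.b₆] at h
    simp only [map_add, map_mul, map_pow, map_sub, map_ofNat] at h
    linear_combination h + (3 * f z6) * h3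
  have hVW : V.reductionMod 3 = (⟨1, f r, s, t⟩ : VariableChange (ZMod 3)) •
      W.reductionMod 3 := by
    have r1 : ∀ (E : WeierstrassCurve ℤ), E.reductionMod 3 = E.map f := fun _ => rfl
    rw [r1, r1]
    ext
    · rw [variableChange_a₁]
      simp only [WeierstrassCurve.map, inv_one, Units.val_one, one_mul]
      exact hs
    · rw [variableChange_a₂]
      simp only [WeierstrassCurve.map, inv_one, Units.val_one, one_mul, one_pow]
      apply mul_left_cancel₀ h4'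
      linear_combination g2 - (f V.a₁ + f W.a₁ + 2 * s) * hs
    · rw [variableChange_a₃]
      simp only [WeierstrassCurve.map, inv_one, Units.val_one, one_mul, one_pow]
      exact ht
    · rw [variableChange_a₄]
      simp only [WeierstrassCurve.map, inv_one, Units.val_one, one_mul, one_pow]
      apply mul_left_cancel₀ h2
      linear_combination g4 - (f V.a₃) * hs - (f W.a₁ + 2 * s) * ht
    · rw [variableChange_a₆]
      simp only [WeierstrassCurve.map, inv_one, Units.val_one, one_mul, one_pow]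
      apply mul_left_cancel₀ h4'
      linear_combination g6 - (f V.a₃ + f W.a₃ + f r * f W.a₁ + 2 * t) * ht
  rw [hVW, trace_vc]

/-- congruence mod 5 for the curves of the family, `ℓ > 5` -/
theorem congr_scaled (W W' : WeierstrassCurve ℤ) (m u : ℤ)
    (h4 : C4 W.c₄ W.c₆ m = u ^ 4 * W'.c₄) (h6 : C6 W.c₄ W.c₆ m = u ^ 6 * W'.c₆)
    (ℓ : ℕ) (hℓ : ℓ.Prime) (hℓ5 : 5 < ℓ) (hu : ¬ (ℓ : ℤ) ∣ u)
    (hg : W.IsGoodPrimeFor ℓ) (hg' : W'.IsGoodPrimeFor ℓ) :
    (5 : ℤ) ∣ (W'.apOfModel ℓ - W.apOfModel ℓ) := by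
  have := Fact.mk hℓ
  obtain ⟨σ, hσ⟩ := Frob.ch_prop ℓ hℓ5
  let k := AlgebraicClosure (ZMod ℓ)
  letI : DecidableEq k := Classical.decEq _
  have hnz' : ∀ m : ℕ, 0 < m → m < ℓ → (m : ZMod ℓ) ≠ 0 := by
    intro m h0 h1
    rw [Ne, CharP.cast_eq_zero_iff (ZMod ℓ) ℓ]
    exact Nat.not_dvd_of_pos_of_lt h0 h1
  have hnz : ∀ m : ℕ, 0 < m → m < ℓ → (m : k) ≠ 0 := by
    intro m h0 h1
    rw [Ne, CharP.cast_eq_zero_iff k ℓ]
    exact Nat.not_dvd_of_pos_of_lt h0 h1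
  have h5k : (5 : k) ≠ 0 := by exact_mod_cast hnz 5 (by norm_num) hℓ5
  have h6k : (6 : k) ≠ 0 := by
    have h2 : ((2 : ℕ) : k) ≠ 0 := hnz 2 (by norm_num) (by omega)
    have h3 : ((3 : ℕ) : k) ≠ 0 := hnz 3 (by norm_num) (by omega)
    have : (6 : k) = ((2 : ℕ) : k) * ((3 : ℕ) : k) := by norm_num
    rw [this]; exact mul_ne_zero h2 h3
  have h1728 : (1728 : ZMod ℓ) ≠ 0 := by
    have h2 : ((2 : ℕ) : ZMod ℓ) ≠ 0 := hnz' 2 (by norm_num) (by omega)
    have h3 : ((3 : ℕ) : ZMod ℓ) ≠ 0 := hnz' 3 (by norm_num) (by omega)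
    have : (1728 : ZMod ℓ) = ((2 : ℕ) : ZMod ℓ) ^ 6 * ((3 : ℕ) : ZMod ℓ) ^ 3 := by norm_num
    rw [this]; exact mul_ne_zero (pow_ne_zero _ h2) (pow_ne_zero _ h3)
  have hu' : (u : ZMod ℓ) ≠ 0 := by
    rwa [Ne, ZMod.intCast_zmod_eq_zero_iff_dvd]
  obtain ⟨n, hn⟩ : ∃ n : ZMod ℓ, 1728 * n = (m : ZMod ℓ) :=
    ⟨(m : ZMod ℓ) / 1728, by field_simp⟩
  let V : WeierstrassCurve (ZMod ℓ) := scale (u : ZMod ℓ) (W'.reductionMod ℓ)
  have hW : (W.reductionMod ℓ).Δ ≠ 0 := by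
    rw [reductionMod, WeierstrassCurve.map_Δ, eq_intCast, Ne,
      ZMod.intCast_zmod_eq_zero_iff_dvd]
    exact hg
  have hV : V.Δ ≠ 0 := by
    rw [scale_Δ]
    refine mul_ne_zero (pow_ne_zero _ hu') ?_
    rw [reductionMod, WeierstrassCurve.map_Δ, eq_intCast, Ne,
      ZMod.intCast_zmod_eq_zero_iff_dvd]
    exact hg'
  let f : ℤ →+* ZMod ℓ := Int.castRingHom (ZMod ℓ)
  have hV4 : V.c₄ = C4 (W.reductionMod ℓ).c₄ (W.reductionMod ℓ).c₆ (1728 * n) := by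
    rw [scale_c₄, hn]
    have := congrArg f h4
    rw [map_C4, map_mul, map_pow] at this
    rw [reductionMod, reductionMod, WeierstrassCurve.map_c₄, WeierstrassCurve.map_c₄,
      WeierstrassCurve.map_c₆]
    exact this.symm
  have hV6 : V.c₆ = C6 (W.reductionMod ℓ).c₄ (W.reductionMod ℓ).c₆ (1728 * n) := by
    rw [scale_c₆, hn]
    have := congrArg f h6
    rw [map_C6, map_mul, map_pow] at this
    rw [reductionMod, reductionMod, WeierstrassCurve.map_c₆, WeierstrassCurve.map_c₄,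
      WeierstrassCurve.map_c₆]
    exact this.symm
  have key := congr_of_CH h6k h5k σ (ℓ : ℤ) hV4 hV6 hW hV _ _ (hσ _ hW) (hσ _ hV)
  rw [trace_scale hu'] at key
  exact key

end Fermat.Agent.H24K
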