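import Mathlib
import Fermat.Agent.H24.Disc
set_option autoImplicit false

/-!
# The family of 5-congruent curves near the cusp
-/

namespace Fermat.Agent.H24K

open Fermat.Agent.H24

variable {R : Type*} [CommRing R]

/-- a tenth of the derivative of `DDe` -/
def DDf (c d m : R) : R := (-(24*d)) + m*((-(324*c^2)) + m*((-(1728*c*d)) + m*(((-11520*d^2+6480*c^3)) + m*((-(9072*c^2*d)) + m*(((193536*c*d^2-204120*c^4)) + m*(((645120*d^3-653184*c^3*d)) + m*(((870912*c^2*d^2-874800*c^5)) + m*(((552960*c*d^3-554040*c^4*d)) + m*((1228800*d^4-2322432*c^3*d^2+1093500*c^6))))))))))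

def Ph (c d X : R) : R := 1*X^12 + -(66*c)*X^10 + -(440*d)*X^9 + -(1485*c^2)*X^8 + -(3168*c*d)*X^7
    + (-10560*d^2+5940*c^3)*X^6 + -(4752*c^2*d)*X^5 + (63360*c*d^2-66825*c^4)*X^4
    + (140800*d^3-142560*c^3*d)*X^3 + (133056*c^2*d^2-133650*c^5)*X^2 + (61440*c*d^3-61560*c^4*d)*X
    + (102400*d^4-193536*c^3*d^2+91125*c^6)

def P1h (c d X : R) : R := -(132*c)*X^10 + -(1320*d)*X^9 + -(5940*c^2)*X^8 + -(15840*c*d)*X^7 + (-63360*d^2+35640*c^3)*X^6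
    + -(33264*c^2*d)*X^5 + (506880*c*d^2-534600*c^4)*X^4 + (1267200*d^3-1283040*c^3*d)*X^3
    + (1330560*c^2*d^2-1336500*c^5)*X^2 + (675840*c*d^3-677160*c^4*d)*X
    + (1228800*d^4-2322432*c^3*d^2+1093500*c^6)

def Peh (c d X : R) : R := -(12*c)*X^10 + -(240*d)*X^9 + -(1620*c^2)*X^8 + -(5760*c*d)*X^7 + (-28800*d^2+16200*c^3)*X^6
    + -(18144*c^2*d)*X^5 + (322560*c*d^2-340200*c^4)*X^4 + (921600*d^3-933120*c^3*d)*X^3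
    + (1088640*c^2*d^2-1093500*c^5)*X^2 + (614400*c*d^3-615600*c^4*d)*X
    + (1228800*d^4-2322432*c^3*d^2+1093500*c^6)

def Pfh (c d X : R) : R := -(24*d)*X^9 + -(324*c^2)*X^8 + -(1728*c*d)*X^7 + (-11520*d^2+6480*c^3)*X^6 + -(9072*c^2*d)*X^5
    + (193536*c*d^2-204120*c^4)*X^4 + (645120*d^3-653184*c^3*d)*X^3
    + (870912*c^2*d^2-874800*c^5)*X^2 + (552960*c*d^3-554040*c^4*d)*X
    + (1228800*d^4-2322432*c^3*d^2+1093500*c^6)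

def QR (s e Y : R) : R := -792*Y^10 - 220*s*Y^9 - 165*s^2*Y^8 - 66*s^3*Y^7 - 11*s^4*Y^6 - 213840*e*Y^8 - 104544*s*e*Y^7
    - 12144*s^2*e*Y^6 + 3432*s^3*e*Y^5 - 165*s^4*e*Y^4 - 55*s^5*e*Y^3 - 11*s^6*e*Y^2 - s^7*e*Y
    + 10264320*e^2*Y^6 + 5816448*s*e^2*Y^5 - 1092960*s^2*e^2*Y^4 - 220000*s^3*e^2*Y^3
    - 50248*s^4*e^2*Y^2 - 4908*s^5*e^2*Y + 57*s^6*e^2 - 1385683200*e^3*Y^4 - 215550720*s*e^3*Y^3
    - 73218816*s^2*e^3*Y^2 - 7963776*s^3*e^3*Y + 288496*s^4*e^3 - 33256396800*e^4*Y^2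
    - 4266224640*s*e^4*Y + 485782272*s^2*e^4 + 272097792000*e^5

def QRp (s e Y : R) : R := -7920*Y^9 - 1980*s*Y^8 - 1320*s^2*Y^7 - 462*s^3*Y^6 - 66*s^4*Y^5 - 1710720*e*Y^7
    - 731808*s*e*Y^6 - 72864*s^2*e*Y^5 + 17160*s^3*e*Y^4 - 660*s^4*e*Y^3 - 165*s^5*e*Y^2
    - 22*s^6*e*Y - s^7*e + 61585920*e^2*Y^5 + 29082240*s*e^2*Y^4 - 4371840*s^2*e^2*Y^3
    - 660000*s^3*e^2*Y^2 - 100496*s^4*e^2*Y - 4908*s^5*e^2 - 5542732800*e^3*Y^3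
    - 646652160*s*e^3*Y^2 - 146437632*s^2*e^3*Y - 7963776*s^3*e^3 - 66512793600*e^4*Y
    - 4266224640*s*e^4

/-- the degree 12 form near the cusp -/
def QQ (s e Y : R) : R := Y^11*(Y+s) + e * QR s e Y

/-- its derivative -/
def QQp (s e Y : R) : R := Y^10*(12*Y+11*s) + e * QRp s e Y

/-- second derivative of QQ over 11 -/
def QQe (s e Y : R) : R := 12*Y^10 + 10*s*Y^9 - 6480*e*Y^8 - 1440*s*e*Y^7 - 840*s^2*e*Y^6 - 252*s^3*e*Y^5 - 30*s^4*e*Y^4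
    - 1088640*e^2*Y^6 - 399168*s*e^2*Y^5 - 33120*s^2*e^2*Y^4 + 6240*s^3*e^2*Y^3 - 180*s^4*e^2*Y^2
    - 30*s^5*e^2*Y - 2*s^6*e^2 + 27993600*e^3*Y^4 + 10575360*s*e^3*Y^3 - 1192320*s^2*e^3*Y^2
    - 120000*s^3*e^3*Y - 9136*s^4*e^3 - 1511654400*e^4*Y^2 - 117573120*s*e^4*Y - 13312512*s^2*e^4
    - 6046617600*e^5

/-- third derivative of QQ over 110 -/
def QQf (s e Y : R) : R := 12*Y^9 + 9*s*Y^8 - 5184*e*Y^7 - 1008*s*e*Y^6 - 504*s^2*e*Y^5 - 126*s^3*e*Y^4 - 12*s^4*e*Y^3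
    - 653184*e^2*Y^5 - 199584*s*e^2*Y^4 - 13248*s^2*e^2*Y^3 + 1872*s^3*e^2*Y^2 - 36*s^4*e^2*Y
    - 3*s^5*e^2 + 11197440*e^3*Y^3 + 3172608*s*e^3*Y^2 - 238464*s^2*e^3*Y - 12000*s^3*e^3
    - 302330880*e^4*Y - 11757312*s*e^4


theorem pw {m X : R} (h : m * X = 1) (j : ℕ) : m ^ j * X ^ j = 1 := by
  rw [← mul_pow, h, one_pow]

theorem DD_hom (c d : R) {m X : R} (h : m * X = 1) : DD c d m = m^12 * Ph c d X := by
  unfold DD Ph PD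
  linear_combination -(1*pw h 12 + -(66*c)*m^2*pw h 10 + -(440*d)*m^3*pw h 9 + -(1485*c^2)*m^4*pw h 8
    + -(3168*c*d)*m^5*pw h 7 + (-10560*d^2+5940*c^3)*m^6*pw h 6 + -(4752*c^2*d)*m^7*pw h 5
    + (63360*c*d^2-66825*c^4)*m^8*pw h 4 + (140800*d^3-142560*c^3*d)*m^9*pw h 3
    + (133056*c^2*d^2-133650*c^5)*m^10*pw h 2 + (61440*c*d^3-61560*c^4*d)*m^11*pw h 1
    + (102400*d^4-193536*c^3*d^2+91125*c^6)*m^12*pw h 0)

theorem DDp_hom (c d : R) {m X : R} (h : m * X = 1) : DDp c d m = m^11 * P1h c d X := by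
  unfold DDp P1h
  linear_combination -(-(132*c)*m^1*pw h 10 + -(1320*d)*m^2*pw h 9 + -(5940*c^2)*m^3*pw h 8
    + -(15840*c*d)*m^4*pw h 7 + (-63360*d^2+35640*c^3)*m^5*pw h 6 + -(33264*c^2*d)*m^6*pw h 5
    + (506880*c*d^2-534600*c^4)*m^7*pw h 4 + (1267200*d^3-1283040*c^3*d)*m^8*pw h 3
    + (1330560*c^2*d^2-1336500*c^5)*m^9*pw h 2 + (675840*c*d^3-677160*c^4*d)*m^10*pw h 1
    + (1228800*d^4-2322432*c^3*d^2+1093500*c^6)*m^11*pw h 0)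

theorem DDe_hom (c d : R) {m X : R} (h : m * X = 1) : DDe c d m = m^10 * Peh c d X := by
  unfold DDe Peh
  linear_combination -(-(12*c)*pw h 10 + -(240*d)*m^1*pw h 9 + -(1620*c^2)*m^2*pw h 8 + -(5760*c*d)*m^3*pw h 7
    + (-28800*d^2+16200*c^3)*m^4*pw h 6 + -(18144*c^2*d)*m^5*pw h 5
    + (322560*c*d^2-340200*c^4)*m^6*pw h 4 + (921600*d^3-933120*c^3*d)*m^7*pw h 3
    + (1088640*c^2*d^2-1093500*c^5)*m^8*pw h 2 + (614400*c*d^3-615600*c^4*d)*m^9*pw h 1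
    + (1228800*d^4-2322432*c^3*d^2+1093500*c^6)*m^10*pw h 0)

theorem DDf_hom (c d : R) {m X : R} (h : m * X = 1) : DDf c d m = m^9 * Pfh c d X := by
  unfold DDf Pfh
  linear_combination -(-(24*d)*pw h 9 + -(324*c^2)*m^1*pw h 8 + -(1728*c*d)*m^2*pw h 7
    + (-11520*d^2+6480*c^3)*m^3*pw h 6 + -(9072*c^2*d)*m^4*pw h 5
    + (193536*c*d^2-204120*c^4)*m^5*pw h 4 + (645120*d^3-653184*c^3*d)*m^6*pw h 3
    + (870912*c^2*d^2-874800*c^5)*m^7*pw h 2 + (552960*c*d^3-554040*c^4*d)*m^8*pw h 1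
    + (1228800*d^4-2322432*c^3*d^2+1093500*c^6)*m^9*pw h 0)


theorem Ph_eq (s e Y : R) : Ph (s^2+1728*e) (-(s*(s^2+1728*e))) (s+12*Y) = 12^12 * QQ s e Y := by
  unfold Ph QQ QR; ring

theorem P1h_eq (s e Y : R) : P1h (s^2+1728*e) (-(s*(s^2+1728*e))) (s+12*Y) =
    12^11 * (144 * QQ s e Y - (s+12*Y) * QQp s e Y) := by
  unfold P1h QQ QR QQp QRp; ring

theorem Peh_eq (s e Y : R) : Peh (s^2+1728*e) (-(s*(s^2+1728*e))) (s+12*Y) =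
    12^10 * (1728 * QQ s e Y - 24 * (s+12*Y) * QQp s e Y + (s+12*Y)^2 * QQe s e Y) := by
  unfold Peh QQ QR QQp QRp QQe; ring

theorem Pfh_eq (s e Y : R) : Pfh (s^2+1728*e) (-(s*(s^2+1728*e))) (s+12*Y) =
    12^9 * (20736 * QQ s e Y - 432 * (s+12*Y) * QQp s e Y + 36 * (s+12*Y)^2 * QQe s e Y
      - (s+12*Y)^3 * QQf s e Y) := by
  unfold Pfh QQ QR QQp QRp QQe QQf; ring

theorem DDp_cube (c d m : R) : DDp c d m ^ 3 - 18 * DD c d m * DDp c d m * DDe c d m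
    + 72 * DD c d m ^ 2 * DDf c d m = -1728 * C6 c d m := by
  unfold DDp DDe DDf C6 P6 P6_9 P6_17 P6_25 DD PD; ring

end Fermat.Agent.H24K
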