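import Fermat.Agent.H24K.Near
set_option autoImplicit false

/-!
# The family of 5-congruent curves near the cusp: local study at 2 and 3
-/

namespace Fermat.Agent.H24K

open Fermat.Agent.H24

theorem exists_inv {p : ℤ} (hp : Prime p) {c : ℤ} (hc : ¬ p ∣ c) (K : ℕ) :
    ∃ u : ℤ, p ^ K ∣ u * c - 1 := by
  have h1 : IsCoprime p c := (Prime.coprime_iff_not_dvd hp).2 hc
  obtain ⟨a, b, h⟩ := h1.pow_left (m := K)
  exact ⟨b, -a, by linear_combination h⟩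

theorem dvd_of_mul {p : ℤ} (hp : Prime p) {w x : ℤ} {a K : ℕ} (hw : ¬ p ∣ w)
    (h : p ^ (a + K) ∣ p ^ a * w * x) : p ^ K ∣ x := by
  have hp0 : p ^ a ≠ 0 := pow_ne_zero _ hp.ne_zero
  rw [pow_add, mul_assoc] at h
  have h1 : p ^ K ∣ w * x := (mul_dvd_mul_iff_left hp0).1 h
  have h2 : IsCoprime (p ^ K) w := ((Prime.coprime_iff_not_dvd hp).2 hw).pow_left
  exact h2.dvd_of_dvd_mul_left h1

theorem mod4_aux1 : ∀ u c : ZMod 4, u * c = 1 → c ^ 3 = 3 ^ 2 → u = 1 := by decide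

theorem mod4_aux2 : ∀ m : ZMod 4, m * (1 + 12 * 1) = 1 → m = 1 := by decide

theorem mod4_aux (u c d s m Y z : ZMod 4) (h1 : u * c = 1) (h2 : c ^ 3 = d ^ 2) (h3 : d = 3)
    (h4 : s = - (d * u)) (h5 : m * (s + 12 * Y) = 1) (h6 : Y = 2 - s)
    (h7 : z = Y^10*(12*Y+11*s)) : 3 ^ 30 * m ^ 30 * z ^ 3 = 3 := by
  subst h3
  have hu : u = 1 := mod4_aux1 u c h1 h2
  subst hu
  have hs : s = 1 := by rw [h4]; decide
  subst hs
  have hY : Y = 1 := by rw [h6]; decide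
  subst hY
  have hm : m = 1 := mod4_aux2 m h5
  subst hm
  rw [h7]; decide

theorem GG6_four {R : Type*} [CommRing R] (h4 : (4 : R) = 0) (q b E F y z : R)
    (hb : b = y + 8 * z) : b ^ 3 - 18 * (2 * q) * b * E + 72 * (2 * q) ^ 2 * F = y ^ 3 := by
  subst hb
  linear_combination (6 * y ^ 2 * z + 48 * y * z ^ 2 + 128 * z ^ 3 - 9 * q * (y + 8 * z) * E +
    72 * q ^ 2 * F) * h4

theorem local_near {p : ℤ} (hp : Prime p) (a : ℕ) (w' : ℤ) (h12 : p ^ a * w' = 12)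
    (hw' : ¬ p ∣ w') (ha : a ≤ 2) (hp11 : ¬ p ∣ 11) (h2w : p = 2 → w' = 3) {c d D : ℤ}
    (hE : c ^ 3 - d ^ 2 = 1728 * D) (hc : ¬ p ∣ c) (hD : p ^ 3 ∣ D) :
    ∃ X : ℤ, ¬ p ∣ X ∧ ∀ m : ℤ, p ^ 100 ∣ m * X - 1 →
      ∃ c' d' D1 : ℤ, C4 c d m = (p ^ a) ^ 20 * c' ∧ C6 c d m = (p ^ a) ^ 30 * d' ∧
        DD c d m = (p ^ a) ^ 12 * D1 ∧ ¬ p ∣ c' ∧ p ∣ D1 ∧ ¬ p ^ 2 ∣ D1 ∧
        (p = 2 → d % 4 = 3 → d' % 4 = 3) := by
  have hpD : p ∣ D := (dvd_pow_self p (by norm_num)).trans hD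
  have hd : ¬ p ∣ d := by
    intro h
    apply hc
    apply hp.dvd_of_dvd_pow (n := 3)
    have e : c ^ 3 = d ^ 2 + 1728 * D := by linear_combination hE
    rw [e]
    exact dvd_add (dvd_pow h two_ne_zero) (Dvd.dvd.mul_left hpD _)
  obtain ⟨u, k, hu⟩ := exists_inv hp hc 100
  obtain ⟨s, hs⟩ : ∃ s, s = -(d * u) := ⟨_, rfl⟩
  obtain ⟨e, he⟩ : ∃ e, e = D * u ^ 2 := ⟨_, rfl⟩
  obtain ⟨Y, hY⟩ : ∃ Y, Y = p - s := ⟨_, rfl⟩
  have hpu : ¬ p ∣ u := by
    intro h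
    apply hp.not_isUnit
    apply isUnit_of_dvd_one
    have e : (1 : ℤ) = u * c - p ^ 100 * k := by linear_combination -hu
    rw [e]
    exact dvd_sub (h.mul_right _) (Dvd.dvd.mul_right (dvd_pow_self _ (by norm_num)) _)
  have hps : ¬ p ∣ s := by
    rw [hs, dvd_neg]
    intro h
    rcases hp.dvd_or_dvd h with h | h
    · exact hd h
    · exact hpu h
  obtain ⟨e', he'⟩ : p ^ 3 ∣ e := by rw [he]; exact hD.mul_right _
  have hpY : ¬ p ∣ Y := by
    intro h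
    apply hps
    have e : s = p - Y := by rw [hY]; ring
    rw [e]; exact dvd_sub dvd_rfl h
  refine ⟨s + 12 * Y, ?_, fun m hm => ?_⟩
  · intro h
    have e1 : s + 12 * Y = 12 * p - 11 * s := by rw [hY]; ring
    rw [e1] at h
    have h2 : p ∣ 11 * s := by
      have : 11 * s = 12 * p - (12 * p - 11 * s) := by ring
      rw [this]; exact dvd_sub (dvd_mul_left _ _) h
    rcases hp.dvd_or_dvd h2 with h | h
    · exact hp11 h
    · exact hps h
  have hN : ∀ z : ℤ, (((p ^ 100).natAbs : ℕ) : ℤ) ∣ z ↔ p ^ 100 ∣ z := fun z => Int.natAbs_dvd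
  have hcc : p ^ 100 ∣ c - (s ^ 2 + 1728 * e) := by
    refine ⟨-(c * k * (1 + u * c)), ?_⟩
    rw [hs, he]
    linear_combination u ^ 2 * hE - c * (1 + u * c) * hu
  have hdd : p ^ 100 ∣ d + s * (s ^ 2 + 1728 * e) := by
    have h1 : p ^ 100 ∣ u * c - 1 := ⟨k, hu⟩
    have e1 : d + s * (s ^ 2 + 1728 * e) = (u * c - 1) * (-d * (u ^ 2 * c ^ 2 + u * c + 1)) := by
      rw [hs, he]
      linear_combination (d * u ^ 3) * hE
    rw [e1]; exact h1.mul_right _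
  obtain ⟨c1, c2, c3⟩ := near_congr (N := (p ^ 100).natAbs) (c := c) (d := d) (s := s) (e := e)
    (Y := Y) (m := m) ((hN _).2 hcc) ((hN _).2 hdd) ((hN _).2 hm)
  rw [hN] at c1 c2 c3
  have hpm : ¬ p ∣ m := by
    intro h
    apply hp.not_isUnit
    apply isUnit_of_dvd_one
    have e : (1 : ℤ) = m * (s + 12 * Y) - (m * (s + 12 * Y) - 1) := by ring
    rw [e]
    exact dvd_sub (h.mul_right _) ((dvd_pow_self _ (by norm_num)).trans hm)
  -- `Q` and `Q'`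
  have hQ : QQ s e Y = p * (Y ^ 11 + p ^ 2 * (e' * QR s e Y)) := by
    have : Y + s = p := by rw [hY]; ring
    rw [QQ, this, he']; ring
  have hQp : QQp s e Y = Y ^ 10 * (12 * Y + 11 * s) + p ^ 3 * (e' * QRp s e Y) := by
    rw [QQp, he']; ring
  have hQp' : ¬ p ∣ QQp s e Y := by
    intro h
    have h1 : p ∣ Y ^ 10 * s := by
      have e1 : Y ^ 10 * s = p * (12 * Y ^ 10 + p ^ 2 * (e' * QRp s e Y)) - QQp s e Y := by
        have : p = Y + s := by rw [hY]; ring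
        rw [hQp]
        linear_combination (-12 * Y ^ 10) * this
      rw [e1]; exact dvd_sub (dvd_mul_right _ _) h
    rcases hp.dvd_or_dvd h1 with h | h
    · exact hpY (hp.dvd_of_dvd_pow h)
    · exact hps h
  have hG4 : ¬ p ∣ GG4 s e Y := by
    intro h
    apply hQp'
    apply hp.dvd_of_dvd_pow (n := 2)
    have e1 : QQp s e Y ^ 2 = GG4 s e Y + p * (12 * (Y ^ 11 + p ^ 2 * (e' * QR s e Y)) *
        QQe s e Y) := by
      rw [GG4, hQ]; ring
    rw [e1]; exact dvd_add h (dvd_mul_right _ _)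
  -- the three values
  obtain ⟨t1, ht1⟩ := c1
  have c2' : p ^ (100 - 2 * a) ∣ C4 c d m - 12 ^ 20 * m ^ 20 * GG4 s e Y := by
    apply dvd_of_mul hp (a := 2 * a) (w := w' ^ 2) (fun h => hw' (hp.dvd_of_dvd_pow h))
    have e1 : 2 * a + (100 - 2 * a) = 100 := by omega
    have e2 : p ^ (2 * a) * w' ^ 2 = 144 := by
      rw [mul_comm 2 a, pow_mul, ← mul_pow, h12]; norm_num
    rw [e1, e2]; exact c2
  have c3' : p ^ (100 - 3 * a) ∣ C6 c d m - 12 ^ 30 * m ^ 30 * GG6 s e Y := by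
    apply dvd_of_mul hp (a := 3 * a) (w := w' ^ 3) (fun h => hw' (hp.dvd_of_dvd_pow h))
    have e1 : 3 * a + (100 - 3 * a) = 100 := by omega
    have e2 : p ^ (3 * a) * w' ^ 3 = 1728 := by
      rw [mul_comm 3 a, pow_mul, ← mul_pow, h12]; norm_num
    rw [e1, e2]; exact c3
  obtain ⟨t2, ht2⟩ := c2'
  obtain ⟨t3, ht3⟩ := c3'
  have p1 : p ^ 100 = (p ^ a) ^ 12 * p ^ (100 - 12 * a) := by
    rw [← pow_mul, ← pow_add]; congr 1; omega
  have p2 : p ^ (100 - 2 * a) = (p ^ a) ^ 20 * p ^ (100 - 22 * a) := by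
    rw [← pow_mul, ← pow_add]; congr 1; omega
  have p3 : p ^ (100 - 3 * a) = (p ^ a) ^ 30 * p ^ (100 - 33 * a) := by
    rw [← pow_mul, ← pow_add]; congr 1; omega
  have q1 : p ^ 2 ∣ p ^ (100 - 12 * a) := pow_dvd_pow _ (by omega)
  have q2 : p ∣ p ^ (100 - 22 * a) := dvd_pow_self _ (by omega)
  have q3 : p ^ 2 ∣ p ^ (100 - 33 * a) := pow_dvd_pow _ (by omega)
  rw [p1] at ht1
  rw [p2] at ht2
  rw [p3] at ht3
  rw [← h12] at ht1 ht2 ht3
  refine ⟨w' ^ 20 * m ^ 20 * GG4 s e Y + p ^ (100 - 22 * a) * t2,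
    w' ^ 30 * m ^ 30 * GG6 s e Y + p ^ (100 - 33 * a) * t3,
    w' ^ 12 * m ^ 12 * QQ s e Y + p ^ (100 - 12 * a) * t1, ?_, ?_, ?_, ?_, ?_, ?_, ?_⟩
  · rw [mul_pow] at ht2; linear_combination ht2
  · rw [mul_pow] at ht3; linear_combination ht3
  · rw [mul_pow] at ht1; linear_combination ht1
  · intro h
    have h1 : p ∣ w' ^ 20 * m ^ 20 * GG4 s e Y := by
      have e1 : w' ^ 20 * m ^ 20 * GG4 s e Y = (w' ^ 20 * m ^ 20 * GG4 s e Y +
        p ^ (100 - 22 * a) * t2) - p ^ (100 - 22 * a) * t2 := by ring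
      rw [e1]; exact dvd_sub h (q2.mul_right _)
    rcases hp.dvd_or_dvd h1 with h | h
    · rcases hp.dvd_or_dvd h with h | h
      · exact hw' (hp.dvd_of_dvd_pow h)
      · exact hpm (hp.dvd_of_dvd_pow h)
    · exact hG4 h
  · rw [hQ]
    refine dvd_add (Dvd.dvd.mul_left (dvd_mul_right _ _) _) (Dvd.dvd.mul_right ?_ _)
    exact (dvd_pow_self p two_ne_zero).trans q1
  · intro h
    have h1 : p ^ 2 ∣ w' ^ 12 * m ^ 12 * QQ s e Y := by
      have e1 : w' ^ 12 * m ^ 12 * QQ s e Y = (w' ^ 12 * m ^ 12 * QQ s e Y +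
        p ^ (100 - 12 * a) * t1) - p ^ (100 - 12 * a) * t1 := by ring
      rw [e1]; exact dvd_sub h (q1.mul_right _)
    rw [hQ] at h1
    have h2 : p * p ∣ p * (w' ^ 12 * m ^ 12 * (Y ^ 11 + p ^ 2 * (e' * QR s e Y))) := by
      have e1 : p * (w' ^ 12 * m ^ 12 * (Y ^ 11 + p ^ 2 * (e' * QR s e Y))) =
        w' ^ 12 * m ^ 12 * (p * (Y ^ 11 + p ^ 2 * (e' * QR s e Y))) := by ring
      rw [e1, ← pow_two]; exact h1
    have h3 := (mul_dvd_mul_iff_left hp.ne_zero).1 h2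
    rcases hp.dvd_or_dvd h3 with h | h
    · rcases hp.dvd_or_dvd h with h | h
      · exact hw' (hp.dvd_of_dvd_pow h)
      · exact hpm (hp.dvd_of_dvd_pow h)
    · apply hpY
      apply hp.dvd_of_dvd_pow (n := 11)
      have e1 : Y ^ 11 = (Y ^ 11 + p ^ 2 * (e' * QR s e Y)) - p * (p * (e' * QR s e Y)) := by ring
      rw [e1]; exact dvd_sub h (dvd_mul_right _ _)
  · intro hp2 hd4
    have hw3 := h2w hp2
    rw [hw3]
    have h2pow : ∀ j : ℕ, 2 ≤ j → (4 : ℤ) ∣ p ^ j := by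
      intro j hj
      rw [hp2]
      exact (by norm_num : (4 : ℤ) ∣ 2 ^ 2).trans (pow_dvd_pow _ hj)
    have cast0 : ∀ z : ℤ, (4 : ℤ) ∣ z → ((z : ℤ) : ZMod 4) = 0 := fun z hz =>
        (ZMod.intCast_zmod_eq_zero_iff_dvd z 4).2 (by exact_mod_cast hz)
    have h4 : (4 : ZMod 4) = 0 := by decide
    have g1 : (u : ZMod 4) * c = 1 := by
      have := cast0 (u * c - 1) (by rw [hu]; exact (h2pow 100 (by norm_num)).mul_right _)
      push_cast at this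
      exact sub_eq_zero.1 this
    have g2 : (c : ZMod 4) ^ 3 = (d : ZMod 4) ^ 2 := by
      have := cast0 (c ^ 3 - d ^ 2) (by rw [hE]; exact Dvd.dvd.mul_right (by norm_num) _)
      push_cast at this
      exact sub_eq_zero.1 this
    have g3 : (d : ZMod 4) = 3 := by
      have := cast0 (d - 3) (by clear * - hd4; omega)
      push_cast at this
      exact sub_eq_zero.1 this
    have g5 : (m : ZMod 4) * ((s : ZMod 4) + 12 * (Y : ZMod 4)) = 1 := by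
      have := cast0 (m * (s + 12 * Y) - 1) ((h2pow 100 (by norm_num)).trans hm)
      push_cast at this
      exact sub_eq_zero.1 this
    have g6 : (Y : ZMod 4) = 2 - (s : ZMod 4) := by
      rw [hY, hp2]; push_cast; ring
    have g7 : (s : ZMod 4) = -((d : ZMod 4) * u) := by rw [hs]; push_cast; ring
    have key := mod4_aux (u : ZMod 4) c d s m Y _ g1 g2 g3 g7 g5 g6 rfl
    have hG : ((GG6 s e Y : ℤ) : ZMod 4) =
        ((Y : ZMod 4) ^ 10 * (12 * (Y : ZMod 4) + 11 * (s : ZMod 4))) ^ 3 := by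
      have e1 : (GG6 s e Y : ℤ) = QQp s e Y ^ 3 - 18 * (2 * (Y ^ 11 + p ^ 2 * (e' * QR s e Y))) *
          QQp s e Y * QQe s e Y +
          72 * (2 * (Y ^ 11 + p ^ 2 * (e' * QR s e Y))) ^ 2 * QQf s e Y := by
        rw [GG6, hQ]; nth_rewrite 1 [hp2]; nth_rewrite 2 [hp2]; rfl
      rw [e1]
      push_cast
      apply GG6_four h4 _ _ _ _ _ ((e' * QRp s e Y : ℤ) : ZMod 4)
      rw [hQp, hp2]; push_cast; ring
    have hz : ((3 ^ 30 * m ^ 30 * GG6 s e Y + p ^ (100 - 33 * a) * t3 : ℤ) : ZMod 4) = 3 := by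
      rw [Int.cast_add, cast0 (p ^ (100 - 33 * a) * t3) ((h2pow _ (by omega)).mul_right _),
        add_zero, Int.cast_mul, hG]
      push_cast
      exact key
    have h7 : (4 : ℤ) ∣ (3 ^ 30 * m ^ 30 * GG6 s e Y + p ^ (100 - 33 * a) * t3) - 3 := by
      have := (ZMod.intCast_zmod_eq_zero_iff_dvd
        ((3 ^ 30 * m ^ 30 * GG6 s e Y + p ^ (100 - 33 * a) * t3) - 3) 4).1 (by
          rw [Int.cast_sub, hz]; push_cast; exact sub_self _)
      exact_mod_cast this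
    generalize (3 ^ 30 * m ^ 30 * GG6 s e Y + p ^ (100 - 33 * a) * t3) = z at h7 ⊢
    clear * - h7
    omega

end Fermat.Agent.H24K
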