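import Fermat.Agent.H24K.Alg
set_option autoImplicit false

/-!
# The family of 5-congruent curves near the cusp: local study at 2 and 3
-/

namespace Fermat.Agent.H24K

open Fermat.Agent.H24

section exact

variable {R : Type*} [CommRing R]

/-- `c₄` near the cusp -/
def GG4 (s e Y : R) : R := QQp s e Y ^ 2 - 12 * QQ s e Y * QQe s e Y

/-- `c₆` near the cusp -/
def GG6 (s e Y : R) : R := QQp s e Y ^ 3 - 18 * QQ s e Y * QQp s e Y * QQe s e Y
  + 72 * QQ s e Y ^ 2 * QQf s e Y

variable {s e Y m : R} (h : m * (s + 12 * Y) = 1)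
include h

theorem DD_near : DD (s^2+1728*e) (-(s*(s^2+1728*e))) m = 12^12 * m^12 * QQ s e Y := by
  rw [DD_hom _ _ h, Ph_eq]; ring

theorem DDp_near : DDp (s^2+1728*e) (-(s*(s^2+1728*e))) m =
    12^11 * m^10 * (144 * m * QQ s e Y - QQp s e Y) := by
  rw [DDp_hom _ _ h, P1h_eq]
  generalize QQ s e Y = a
  generalize QQp s e Y = b
  generalize s + 12 * Y = X at *
  linear_combination (-(12^11 * m^10 * b)) * h

theorem DDe_near : DDe (s^2+1728*e) (-(s*(s^2+1728*e))) m =
    12^10 * m^8 * (1728 * m^2 * QQ s e Y - 24 * m * QQp s e Y + QQe s e Y) := by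
  rw [DDe_hom _ _ h, Peh_eq]
  generalize QQ s e Y = a
  generalize QQp s e Y = b
  generalize QQe s e Y = b'
  generalize s + 12 * Y = X at *
  linear_combination 12^10 * m^8 * (-24 * m * b + b' * (m * X + 1)) * h

theorem DDf_near : DDf (s^2+1728*e) (-(s*(s^2+1728*e))) m =
    12^9 * m^6 * (20736 * m^3 * QQ s e Y - 432 * m^2 * QQp s e Y + 36 * m * QQe s e Y
      - QQf s e Y) := by
  rw [DDf_hom _ _ h, Pfh_eq]
  generalize QQ s e Y = a
  generalize QQp s e Y = b
  generalize QQe s e Y = b'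
  generalize QQf s e Y = b''
  generalize s + 12 * Y = X at *
  linear_combination 12^9 * m^6 * (-432 * m^2 * b + 36 * m * b' * (m * X + 1)
    - b'' * (m^2 * X^2 + m * X + 1)) * h

theorem C4_near : 144 * C4 (s^2+1728*e) (-(s*(s^2+1728*e))) m =
    144 * (12^20 * m^20 * GG4 s e Y) := by
  have h1 := DDp_sq (s^2+1728*e) (-(s*(s^2+1728*e))) m
  rw [DDp_near h, DD_near h, DDe_near h] at h1
  unfold GG4
  generalize QQ s e Y = a at *
  generalize QQp s e Y = b at *
  generalize QQe s e Y = b' at *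
  linear_combination -h1

theorem C6_near : 1728 * C6 (s^2+1728*e) (-(s*(s^2+1728*e))) m =
    1728 * (12^30 * m^30 * GG6 s e Y) := by
  have h1 := DDp_cube (s^2+1728*e) (-(s*(s^2+1728*e))) m
  rw [DDp_near h, DD_near h, DDe_near h, DDf_near h] at h1
  unfold GG6
  generalize QQ s e Y = a at *
  generalize QQp s e Y = b at *
  generalize QQe s e Y = b' at *
  generalize QQf s e Y = b'' at *
  linear_combination h1

end exact

section maps

variable {R S : Type*} [CommRing R] [CommRing S] (f : R →+* S) (s e Y : R)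

theorem map_QQ : f (QQ s e Y) = QQ (f s) (f e) (f Y) := by
  simp only [QQ, QR, map_add, map_mul, map_pow, map_sub, map_ofNat, map_neg]

theorem map_GG4 : f (GG4 s e Y) = GG4 (f s) (f e) (f Y) := by
  simp only [GG4, QQ, QR, QQp, QRp, QQe, map_add, map_mul, map_pow, map_sub, map_ofNat, map_neg]

theorem map_GG6 : f (GG6 s e Y) = GG6 (f s) (f e) (f Y) := by
  simp only [GG6, QQ, QR, QQp, QRp, QQe, QQf, map_add, map_mul, map_pow, map_sub, map_ofNat,
    map_neg]

end maps

/-- congruences modulo `N` -/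
theorem near_congr {N : ℕ} {c d s e Y m : ℤ} (hc : (N : ℤ) ∣ c - (s^2+1728*e))
    (hd : (N : ℤ) ∣ d + s*(s^2+1728*e)) (hm : (N : ℤ) ∣ m * (s + 12 * Y) - 1) :
    (N : ℤ) ∣ DD c d m - 12^12 * m^12 * QQ s e Y ∧
    (N : ℤ) ∣ 144 * (C4 c d m - 12^20 * m^20 * GG4 s e Y) ∧
    (N : ℤ) ∣ 1728 * (C6 c d m - 12^30 * m^30 * GG6 s e Y) := by
  let f : ℤ →+* ZMod N := Int.castRingHom (ZMod N)
  have hf : ∀ z : ℤ, f z = 0 ↔ (N : ℤ) ∣ z := fun z => ZMod.intCast_zmod_eq_zero_iff_dvd z N
  rw [← hf] at hc hd hm ⊢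
  rw [← hf, ← hf]
  have hc' : f c = f s ^ 2 + 1728 * f e := by
    rw [map_sub, map_add, map_pow, map_mul, map_ofNat] at hc
    exact sub_eq_zero.1 hc
  have hd' : f d = -(f s * (f s ^ 2 + 1728 * f e)) := by
    rw [map_add, map_mul, map_add, map_pow, map_mul, map_ofNat] at hd
    exact eq_neg_of_add_eq_zero_left hd
  have hm' : f m * (f s + 12 * f Y) = 1 := by
    rw [map_sub, map_mul, map_add, map_mul, map_ofNat, map_one] at hm
    exact sub_eq_zero.1 hm
  refine ⟨?_, ?_, ?_⟩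
  · rw [map_sub, map_mul, map_mul, map_pow, map_pow, map_ofNat, map_QQ, map_DD, hc', hd',
      DD_near hm', sub_self]
  · rw [map_mul, map_sub, map_mul, map_mul, map_pow, map_pow, map_ofNat, map_ofNat, map_GG4,
      map_C4, hc', hd', mul_sub, C4_near hm', sub_self]
  · rw [map_mul, map_sub, map_mul, map_mul, map_pow, map_pow, map_ofNat, map_ofNat, map_GG6,
      map_C6, hc', hd', mul_sub, C6_near hm', sub_self]

end Fermat.Agent.H24K
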