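import Fermat.Agent.H24K.Trace
import Fermat.Agent.H24K.Local
import Fermat.Agent.H07.SelLocal
set_option autoImplicit false

/-!
# One step of the switch: changing the valuation of the discriminant at 2 or 3
-/

namespace Fermat.Agent.H24K

open WeierstrassCurve Fermat.Agent.H24 Fermat.Agent.H07.Sel

section mzero

variable {c d m : ℤ} {M : ℤ}

theorem C4_zero (h : M ∣ m) : M ∣ C4 c d m - c := by
  have : C4 c d m - c = m * P4 c d m := by unfold C4; ring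
  rw [this]; exact h.mul_right _

theorem C6_zero (h : M ∣ m) : M ∣ C6 c d m - d := by
  have : C6 c d m - d = m * P6 c d m := by unfold C6; ring
  rw [this]; exact h.mul_right _

theorem DD_zero (h : M ∣ m) : M ∣ DD c d m - 1 := by
  have : DD c d m - 1 = m * PD c d m := by unfold DD; ring
  rw [this]; exact h.mul_right _

theorem not_dvd_DD' (hM : Prime M) (h : M ∣ m) : ¬ M ∣ DD c d m := by
  intro h1
  apply hM.not_isUnit
  apply isUnit_of_dvd_one
  have e : (1 : ℤ) = DD c d m - (DD c d m - 1) := by ring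
  rw [e]; exact dvd_sub h1 (DD_zero h)

end mzero

theorem step (p : ℕ) (a : ℕ) (w' : ℤ) (hp23 : (p = 2 ∧ a = 2 ∧ w' = 3) ∨ (p = 3 ∧ a = 1 ∧ w' = 4))
    (W : WeierstrassCurve ℤ) (hΔ : W.Δ ≠ 0) (hW : W.IsSemistableModel) (h2 : (2 : ℤ) ∣ W.Δ)
    (hpΔ : (p : ℤ) ^ 3 ∣ W.Δ) :
    ∃ W' : WeierstrassCurve ℤ, W'.Δ ≠ 0 ∧ W'.IsSemistableModel ∧ (2 : ℤ) ∣ W'.Δ ∧
      padicValInt p W'.Δ = padicValInt p W.Δ + 5 ∧
      (∀ q : ℕ, q.Prime → q ≠ p → q ≤ 5 → padicValInt q W'.Δ = padicValInt q W.Δ) ∧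
      (∀ q : ℕ, q.Prime → (q : ℤ) ∣ W.Δ → (q : ℤ) ∣ W'.Δ) ∧
      ∀ ℓ : ℕ, ℓ.Prime → W.IsGoodPrimeFor ℓ → W'.IsGoodPrimeFor ℓ → ℓ ≠ 5 →
        (5 : ℤ) ∣ (W'.apOfModel ℓ - W.apOfModel ℓ) := by
  have hE : W.c₄ ^ 3 - W.c₆ ^ 2 = 1728 * W.Δ := W.c_relation.symm
  have hc2 : ¬ (2 : ℤ) ∣ W.c₄ := by
    have := hW 2 Nat.prime_two (by exact_mod_cast h2)
    exact_mod_cast this
  have hd4 : W.c₆ % 4 = 3 := c6_mod_four W hc2
  have hc6 : (3 : ℤ) ∣ W.c₄ → (27 : ℤ) ∣ W.c₆ := c6_three W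
  have hp : p.Prime := by
    rcases hp23 with ⟨rfl, -, -⟩ | ⟨rfl, -, -⟩
    · exact Nat.prime_two
    · exact Nat.prime_three
  have hfp := Fact.mk hp
  have hp' : Prime (p : ℤ) := Nat.prime_iff_prime_int.mp hp
  have hpD : (p : ℤ) ∣ W.Δ := (dvd_pow_self _ (by norm_num)).trans hpΔ
  have hcp : ¬ (p : ℤ) ∣ W.c₄ := hW p hp hpD
  have h12 : (p : ℤ) ^ a * w' = 12 := by
    rcases hp23 with ⟨rfl, rfl, rfl⟩ | ⟨rfl, rfl, rfl⟩ <;> norm_num
  have hw' : ¬ (p : ℤ) ∣ w' := by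
    rcases hp23 with ⟨rfl, rfl, rfl⟩ | ⟨rfl, rfl, rfl⟩ <;> norm_num
  have ha : a ≤ 2 := by
    rcases hp23 with ⟨rfl, rfl, rfl⟩ | ⟨rfl, rfl, rfl⟩ <;> norm_num
  have hp11 : ¬ (p : ℤ) ∣ 11 := by
    rcases hp23 with ⟨rfl, rfl, rfl⟩ | ⟨rfl, rfl, rfl⟩ <;> norm_num
  have h2w : (p : ℤ) = 2 → w' = 3 := by
    intro h
    rcases hp23 with ⟨rfl, rfl, rfl⟩ | ⟨rfl, rfl, rfl⟩
    · rfl
    · norm_num at h
  obtain ⟨X, hX, hloc⟩ := local_near hp' a w' h12 hw' ha hp11 h2w hE hcp hpΔ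
  -- choice of `m`
  obtain ⟨D0, hD0, hnD0⟩ : ∃ D0 : ℤ, (∀ q : ℕ, q.Prime → q ≠ p → (q : ℤ) ∣ W.Δ → (q : ℤ) ∣ D0) ∧
      ¬ (p : ℤ) ∣ D0 := by
    obtain ⟨n, D0, h, hD⟩ := WfDvdMonoid.max_power_factor (a₀ := W.Δ) (x := (p : ℤ)) hΔ
      hp'.irreducible
    refine ⟨D0, fun q hq hqp h1 => ?_, h⟩
    have hq' := Nat.prime_iff_prime_int.mp hq
    rw [hD] at h1
    rcases hq'.dvd_or_dvd h1 with h1 | h1
    · exfalso
      have h3 : (q : ℤ) ∣ (p : ℤ) := hq'.dvd_of_dvd_pow h1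
      have h4 : q ∣ p := by exact_mod_cast h3
      exact hqp ((Nat.prime_dvd_prime_iff_eq hq hp).1 h4)
    · exact h1
  obtain ⟨B, hB⟩ : ∃ B : ℤ, B = if p = 2 then 243 else 4 := ⟨_, rfl⟩
  have hBp : ¬ (p : ℤ) ∣ B := by
    rcases hp23 with ⟨rfl, rfl, rfl⟩ | ⟨rfl, rfl, rfl⟩ <;> rw [hB] <;> norm_num
  have hM0 : ¬ (p : ℤ) ∣ 5 * B * D0 * X := by
    intro h
    rcases hp'.dvd_or_dvd h with h | h
    · rcases hp'.dvd_or_dvd h with h | h
      · rcases hp'.dvd_or_dvd h with h | h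
        · rcases hp23 with ⟨rfl, rfl, rfl⟩ | ⟨rfl, rfl, rfl⟩ <;> norm_num at h
        · exact hBp h
      · exact hnD0 h
    · exact hX h
  obtain ⟨t, ht⟩ := exists_inv hp' hM0 100
  obtain ⟨m, hm⟩ : ∃ m, m = t * (5 * B * D0) := ⟨_, rfl⟩
  have hm1 : (p : ℤ) ^ 100 ∣ m * X - 1 := by
    have : m * X - 1 = t * (5 * B * D0 * X) - 1 := by rw [hm]; ring
    rw [this]; exact ht
  have h5m : (5 : ℤ) ∣ m := ⟨t * (B * D0), by rw [hm]; ring⟩
  have hBm : B ∣ m := ⟨t * (5 * D0), by rw [hm]; ring⟩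
  have hDm : D0 ∣ m := ⟨t * (5 * B), by rw [hm]; ring⟩
  -- primes `≠ p` dividing `30 Δ` divide `m`
  have hqm : ∀ q : ℕ, q.Prime → q ≠ p → (q : ℤ) ∣ 30 * W.Δ → (q : ℤ) ∣ m := by
    intro q hq hqp h
    have hq' := Nat.prime_iff_prime_int.mp hq
    rcases hq'.dvd_or_dvd h with h | h
    · have h3 : q ∣ 30 := by exact_mod_cast h
      have h30 : (30 : ℕ) = 2 * (3 * 5) := by norm_num
      rw [h30] at h3
      rcases (Nat.Prime.dvd_mul hq).1 h3 with h3 | h3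
      · have e := (Nat.prime_dvd_prime_iff_eq hq Nat.prime_two).1 h3
        subst e
        rcases hp23 with ⟨e, -, -⟩ | ⟨rfl, -, -⟩
        · exact absurd e.symm hqp
        · have h4 : (4 : ℤ) ∣ m := by rw [hB] at hBm; simpa using hBm
          exact (by norm_num : ((2 : ℕ) : ℤ) ∣ 4).trans h4
      · rcases (Nat.Prime.dvd_mul hq).1 h3 with h3 | h3
        · have e := (Nat.prime_dvd_prime_iff_eq hq Nat.prime_three).1 h3
          subst e
          rcases hp23 with ⟨rfl, -, -⟩ | ⟨e, -, -⟩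
          · have h4 : (243 : ℤ) ∣ m := by rw [hB] at hBm; simpa using hBm
            exact (by norm_num : ((3 : ℕ) : ℤ) ∣ 243).trans h4
          · exact absurd e.symm hqp
        · have e := (Nat.prime_dvd_prime_iff_eq hq Nat.prime_five).1 h3
          subst e
          exact_mod_cast h5m
    · exact (hD0 q hq hqp h).trans hDm
  obtain ⟨c', d', D1, e4, e6, eD, hc', hD1, hD1', hd'⟩ := hloc m hm1
  have hdisc := disc_int W.c₄ W.c₆ W.Δ m hE hΔ
  obtain ⟨u, hu⟩ : ∃ u : ℤ, u = (p : ℤ) ^ (5 * a) := ⟨_, rfl⟩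
  have hu0 : u ≠ 0 := by rw [hu]; exact pow_ne_zero _ hp'.ne_zero
  have e4' : C4 W.c₄ W.c₆ m = u ^ 4 * c' := by rw [e4, hu]; ring
  have e6' : C6 W.c₄ W.c₆ m = u ^ 6 * d' := by rw [e6, hu]; ring
  have eD' : DD W.c₄ W.c₆ m ^ 5 = u ^ 12 * D1 ^ 5 := by rw [eD, hu]; ring
  have hrel : c' ^ 3 - d' ^ 2 = 1728 * (W.Δ * D1 ^ 5) := by
    rw [e4', e6', eD'] at hdisc
    have : u ^ 12 * (c' ^ 3 - d' ^ 2) = u ^ 12 * (1728 * (W.Δ * D1 ^ 5)) := by
      linear_combination hdisc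
    exact mul_left_cancel₀ (pow_ne_zero _ hu0) this
  have hun : ∀ q : ℕ, q.Prime → q ≠ p → ¬ (q : ℤ) ∣ u := by
    intro q hq hqp h
    have hq' := Nat.prime_iff_prime_int.mp hq
    rw [hu] at h
    have h3 : (q : ℤ) ∣ (p : ℤ) := hq'.dvd_of_dvd_pow h
    have h4 : q ∣ p := by exact_mod_cast h3
    exact hqp ((Nat.prime_dvd_prime_iff_eq hq hp).1 h4)
  have hc'2 : ¬ (2 : ℤ) ∣ c' := by
    rcases hp23 with ⟨rfl, -, -⟩ | ⟨rfl, -, -⟩
    · exact_mod_cast hc'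
    · intro h
      apply hc2
      have h2m : (2 : ℤ) ∣ m := by
        exact_mod_cast hqm 2 Nat.prime_two (by norm_num) (Dvd.dvd.mul_right (by norm_num) _)
      have e : W.c₄ = u ^ 4 * c' - (C4 W.c₄ W.c₆ m - W.c₄) := by rw [← e4']; ring
      rw [e]; exact dvd_sub (h.mul_left _) (C4_zero h2m)
  have hd'4 : d' % 4 = 3 := by
    rcases hp23 with ⟨rfl, -, -⟩ | ⟨rfl, rfl, -⟩
    · exact hd' (by norm_num) hd4
    · have h4 : (4 : ℤ) ∣ m := by rw [hB] at hBm; simpa using hBm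
      have h5 : (4 : ℤ) ∣ C6 W.c₄ W.c₆ m - W.c₆ := C6_zero h4
      have h6 : (4 : ℤ) ∣ (u ^ 6 - 1) * d' := by
        apply Dvd.dvd.mul_right
        rw [hu]; norm_num
      have h7 : (4 : ℤ) ∣ d' - W.c₆ := by
        have e : d' - W.c₆ = (C6 W.c₄ W.c₆ m - W.c₆) - (u ^ 6 - 1) * d' := by rw [e6']; ring
        rw [e]; exact dvd_sub h5 h6
      clear * - h7 hd4
      omega
  have h3' : ¬ (3 : ℤ) ∣ c' ∨ (27 : ℤ) ∣ d' := by
    rcases hp23 with ⟨rfl, -, -⟩ | ⟨rfl, -, -⟩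
    · have h4 : (243 : ℤ) ∣ m := by rw [hB] at hBm; simpa using hBm
      by_cases h3c : (3 : ℤ) ∣ W.c₄
      · right
        have h5 : (27 : ℤ) ∣ C6 W.c₄ W.c₆ m := by
          have e : C6 W.c₄ W.c₆ m = (C6 W.c₄ W.c₆ m - W.c₆) + W.c₆ := by ring
          rw [e]
          exact dvd_add ((by norm_num : (27 : ℤ) ∣ 243).trans (C6_zero h4)) (hc6 h3c)
        rw [e6'] at h5
        have hcop : IsCoprime (27 : ℤ) (u ^ 6) := by
          have h1 : IsCoprime (3 : ℤ) u := by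
            rw [Prime.coprime_iff_not_dvd Int.prime_three]
            exact_mod_cast hun 3 Nat.prime_three (by norm_num)
          have h2 : IsCoprime ((3 : ℤ) ^ 3) (u ^ 6) := h1.pow
          norm_num at h2
          exact h2
        exact hcop.dvd_of_dvd_mul_left h5
      · left
        intro h
        apply h3c
        have e : W.c₄ = u ^ 4 * c' - (C4 W.c₄ W.c₆ m - W.c₄) := by rw [← e4']; ring
        rw [e]
        exact dvd_sub (h.mul_left _) (C4_zero ((by norm_num : (3 : ℤ) ∣ 243).trans h4))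
    · left; exact_mod_cast hc'
  obtain ⟨W', hW4, hW6, hWD⟩ := exists_model hrel hc'2 hd'4 (h2.mul_right _) h3'
  have hD10 : D1 ≠ 0 := by rintro rfl; exact hD1' (dvd_zero _)
  have hD15 : D1 ^ 5 ≠ 0 := pow_ne_zero _ hD10
  -- primes dividing `m` do not divide `D1`
  have hqD1 : ∀ q : ℕ, q.Prime → (q : ℤ) ∣ m → ¬ (q : ℤ) ∣ D1 := by
    intro q hq h1 h2
    have hq' := Nat.prime_iff_prime_int.mp hq
    apply not_dvd_DD' (c := W.c₄) (d := W.c₆) hq' h1
    rw [eD]; exact h2.mul_left _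
  refine ⟨W', ?_, ?_, ?_, ?_, ?_, ?_, ?_⟩
  · rw [hWD]; exact mul_ne_zero hΔ hD15
  · intro q hq hqΔ
    have hq' := Nat.prime_iff_prime_int.mp hq
    rw [hW4]
    by_cases hqp : q = p
    · subst hqp; exact hc'
    intro hqc
    have hqC : (q : ℤ) ∣ C4 W.c₄ W.c₆ m := by rw [e4']; exact hqc.mul_left _
    by_cases h30 : (q : ℤ) ∣ 30 * W.Δ
    · have h1 := hqm q hq hqp h30
      rw [hWD] at hqΔ
      have hqD : (q : ℤ) ∣ W.Δ := by
        rcases hq'.dvd_or_dvd hqΔ with h | h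
        · exact h
        · exact absurd (hq'.dvd_of_dvd_pow h) (hqD1 q hq h1)
      apply hW q hq hqD
      have e : W.c₄ = C4 W.c₄ W.c₆ m - (C4 W.c₄ W.c₆ m - W.c₄) := by ring
      rw [e]; exact dvd_sub hqC (C4_zero h1)
    · have hqDD : (q : ℤ) ∣ DD W.c₄ W.c₆ m := by
        rw [hWD] at hqΔ
        rcases hq'.dvd_or_dvd hqΔ with h | h
        · exact absurd (h.mul_left 30) h30
        · rw [eD]; exact (hq'.dvd_of_dvd_pow h).mul_left _
      exact not_dvd_C4 _ _ W.Δ _ hE hq h30 hqDD hqC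
  · rw [hWD]; exact h2.mul_right _
  · rw [hWD, padicValInt.mul hΔ hD15]
    congr 1
    have e : D1 ^ 5 = D1 * (D1 * (D1 * (D1 * D1))) := by ring
    rw [e, padicValInt.mul hD10 (by positivity), padicValInt.mul hD10 (by positivity),
      padicValInt.mul hD10 (by positivity), padicValInt.mul hD10 hD10, val_one hp hD1 hD1']
  · intro q hq hqp hq5
    have hfq := Fact.mk hq
    have hq' := Nat.prime_iff_prime_int.mp hq
    have h30 : (q : ℤ) ∣ 30 := by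
      have h2 := hq.two_le
      interval_cases q
      · norm_num
      · norm_num
      · exact absurd hq (by decide)
      · norm_num
    have h1 := hqm q hq hqp (h30.mul_right _)
    rw [hWD, padicValInt.mul hΔ hD15, val_zero (n := D1 ^ 5)
      (fun h => hqD1 q hq h1 (hq'.dvd_of_dvd_pow h)), add_zero]
  · intro q hq h
    rw [hWD]; exact h.mul_right _
  · intro ℓ hℓ hg hg' hℓ5
    have hℓ2 : ℓ ≠ 2 := by
      rintro rfl
      exact hg (by exact_mod_cast h2)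
    have hℓp : ℓ ≠ p := by
      rintro rfl
      exact hg hpD
    by_cases hℓ3 : ℓ = 3
    · subst hℓ3
      rcases hp23 with ⟨rfl, -, -⟩ | ⟨rfl, -, -⟩
      · have h4 : (243 : ℤ) ∣ m := by rw [hB] at hBm; simpa using hBm
        have hfact : Fact (Nat.Prime 3) := ⟨Nat.prime_three⟩
        have key := trace_three W (scale u W') (by rw [scale_c₄, hW4, ← e4']; exact C4_zero h4)
          (by rw [scale_c₆, hW6, ← e6']; exact C6_zero h4)
        have hu3 : (u : ZMod 3) ≠ 0 := by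
          rw [Ne, ZMod.intCast_zmod_eq_zero_iff_dvd]
          exact hun 3 Nat.prime_three (by norm_num)
        have hmap : (scale u W').reductionMod 3 = scale (u : ZMod 3) (W'.reductionMod 3) :=
          scale_map u W' (Int.castRingHom (ZMod 3))
        rw [hmap, trace_scale hu3] at key
        unfold apOfModel
        rw [key, sub_self]
        exact dvd_zero _
      · exact absurd rfl hℓp
    · have h5 : 5 < ℓ := by
        have h2 := hℓ.two_le
        by_contra hle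
        push Not at hle
        interval_cases ℓ
        · exact hℓ2 rfl
        · exact hℓ3 rfl
        · exact absurd hℓ (by decide)
        · exact hℓ5 rfl
      refine congr_scaled W W' m u ?_ ?_ ℓ hℓ h5 (hun ℓ hℓ hℓp) hg hg'
      · rw [hW4]; exact e4'
      · rw [hW6]; exact e6'

end Fermat.Agent.H24K
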