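import Fermat.Agent.Ell.Z8
import Fermat.Agent.H24K.Final
set_option autoImplicit false

/-!
# K2 in the form used by the top chain
-/

namespace Fermat.Agent.H24K

/-- **K2** -/
theorem switch5 : Fermat.Agent.Ell.Switch5 := by
  intro W hΔ hW h2 _
  obtain ⟨W', h1, h2, h3, h4, h5, -, h7, h8⟩ := switch_control W hΔ hW h2
  exact ⟨W', h1, h2, h3, h4, h5, h7, h8⟩

end Fermat.Agent.H24K
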